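import Fermat.Agent.S48.M.Alg.W
import Fermat.Agent.S48.M.Fld.Degree
import Fermat.Agent.S20.CountIndex

/-!
# S48 / layer M / ALG : `[FL (lvG M ℓ) : FL (lvG M 1)] = ℓ + 1` for a prime `ℓ ∤ M`   (helper2)

* generic: `card_mul_relfinrankL` : `card (QL L) * [FL L' : FL L] = card (QL L')` for `barL L ≤ barL L'` (from `finrank_FL`);
* `relIndex_GG` : `[GG M 1 : GG M ℓ] = ℓ + 1` (the invariant `S20.Count.relInv` restricted to `GG M 1`);
* `finrankAlong_alphaG`.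
-/

set_option autoImplicit false

open ModularCurve IntermediateField AlgebraicCurve CongruenceSubgroup
open Fermat.Agent.S24 Fermat.Agent.S29 Fermat.Agent.S20.Count
open scoped MatrixGroups

noncomputable section

namespace Fermat.Agent.S48.M

/-- `j` as a Laurent series over `Kb` -/
def jS : LaurentSeries Kb := coeffEmb Kb jq

theorem relfinrank_jS (L : Lvl) : relfinrank Kb⟮jS⟯ (barL L) = Nat.card (QL L) := by
  rw [← finrank_FL L, ← relfinrank_top_right,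
    ← relfinrank_map_map _ _ (barL L).val, adjoin_map, Set.image_singleton,
    ← AlgHom.fieldRange_eq_map, fieldRange_val]
  rfl

theorem adjoin_jS_le (L : Lvl) : Kb⟮jS⟯ ≤ barL L := by
  rw [adjoin_simple_le_iff]
  exact (jL L).2

theorem card_mul_relfinrankL (L L' : Lvl) (h : barL L ≤ barL L') :
    Nat.card (QL L) * relfinrank (barL L) (barL L') = Nat.card (QL L') := by
  rw [← relfinrank_jS L, ← relfinrank_jS L']
  exact relfinrank_mul_relfinrank (adjoin_jS_le L) h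

section Index

variable {M ℓ : ℕ}

theorem GG_le_Gamma0 (M R : ℕ) : GG M R ≤ Gamma0 M := fun _ hg => Gamma0_mul_le M R hg.1

theorem GG_le_GG (M ℓ : ℕ) : GG M ℓ ≤ GG M 1 := fun g hg =>
  ⟨by rw [mul_one]; exact GG_le_Gamma0 M ℓ hg, hg.2⟩

theorem GG_eq_inf (M ℓ : ℕ) : GG M ℓ = Gamma0 (M * ℓ) ⊓ GG M 1 := by
  ext g
  constructor
  · intro hg
    exact ⟨hg.1, GG_le_GG M ℓ hg⟩
  · rintro ⟨h1, h2⟩
    exact ⟨h1, h2.2⟩

/-- the invariant classifying the cosets of `GG M ℓ` in `GG M 1` -/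
def relInvG (M ℓ : ℕ) (g : GG M 1) : Option (ZMod ℓ) :=
  relInv M ℓ ⟨g, GG_le_Gamma0 M 1 g.2⟩

theorem relInvG_eq_iff [Fact ℓ.Prime] (hM : 0 < M) (x y : GG M 1) :
    relInvG M ℓ x = relInvG M ℓ y ↔ x⁻¹ * y ∈ (Gamma0 (M * ℓ)).subgroupOf (GG M 1) := by
  rw [relInvG, relInvG, relInv_eq_iff hM, Subgroup.mem_subgroupOf, Subgroup.mem_subgroupOf]
  rfl

theorem range_relInvG [Fact ℓ.Prime] (hM : 0 < M) (hℓM : ¬ ℓ ∣ M) :
    Set.range (relInvG M ℓ) = Set.univ := by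
  have hM' : (M : ℤ) ≠ 0 := by exact_mod_cast hM.ne'
  rw [Set.eq_univ_iff_forall]
  rintro (_ | t)
  · obtain ⟨D⟩ := nonempty_WData ((Nat.Prime.coprime_iff_not_dvd Fact.out).mpr hℓM)
    let g : SL(2, ℤ) := ⟨!![(ℓ : ℤ) * D.d, D.k; (M : ℤ), 1], by
      rw [Matrix.det_fin_two_of]; linarith [D.det]⟩
    have hg : g ∈ GG M 1 := by
      rw [mem_GG, Gamma0_mem, mul_one]
      exact ⟨by show (((M : ℤ) : ℤ) : ZMod M) = 0; simp, Or.inl (by show ((1 : ℤ) : ZMod M) = 1; simp)⟩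
    refine ⟨⟨g, hg⟩, ?_⟩
    unfold relInvG relInv
    have : (((ℓ : ℤ) * D.d : ℤ) : ZMod ℓ) = 0 := by simp
    exact if_pos this
  · have hg : ofCol 1 ((M : ℤ) * (t.val : ℤ)) 1 0 (by ring) ∈ GG M 1 := by
      rw [mem_GG, Gamma0_mem, mul_one, ofCol_one_zero]
      refine ⟨by simp, Or.inl ?_⟩
      show ((1 : ℤ) : ZMod M) = 1
      simp
    refine ⟨⟨_, hg⟩, ?_⟩
    unfold relInvG relInv
    simp only [ofCol_zero_zero, ofCol_one_zero]
    rw [Int.mul_ediv_cancel_left _ hM']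
    simp

theorem relIndex_GG (hℓ : ℓ.Prime) (hM : 0 < M) (hℓM : ¬ ℓ ∣ M) :
    (GG M ℓ).relIndex (GG M 1) = ℓ + 1 := by
  have : Fact ℓ.Prime := ⟨hℓ⟩
  rw [GG_eq_inf, Subgroup.inf_relIndex_right, Subgroup.relIndex, Subgroup.index_eq_card,
    card_quotient_eq_card_range _ (relInvG M ℓ) (relInvG_eq_iff hM), range_relInvG hM hℓM,
    Nat.card_univ, Nat.card_eq_fintype_card, Fintype.card_option, ZMod.card]

theorem index_GG (hℓ : ℓ.Prime) (hM : 0 < M) (hℓM : ¬ ℓ ∣ M) :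
    (GG M ℓ).index = (ℓ + 1) * (GG M 1).index := by
  rw [← relIndex_GG hℓ hM hℓM, Subgroup.relIndex_mul_index (GG_le_GG M ℓ)]

end Index

variable (M ℓ : ℕ) [NeZero M] [NeZero ℓ]

theorem card_QL_lvG (hℓ : ℓ.Prime) (hℓM : ¬ ℓ ∣ M) :
    Nat.card (QL (lvG M ℓ)) = (ℓ + 1) * Nat.card (QL (lvG M 1)) :=
  index_GG hℓ (Nat.pos_of_ne_zero (NeZero.ne M)) hℓM

theorem finrankAlong_alphaG_eq :
    finrankAlong Kb (alphaG M ℓ) = relfinrank (barL (lvG M 1)) (barL (lvG M ℓ)) := by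
  rw [relfinrank_eq_finrank_of_le (barL_le M ℓ)]
  rfl

theorem finrankAlong_alphaG (hℓ : ℓ.Prime) (hℓM : ¬ ℓ ∣ M) :
    finrankAlong Kb (alphaG M ℓ) = ℓ + 1 := by
  have h1 := card_mul_relfinrankL (lvG M 1) (lvG M ℓ) (barL_le M ℓ)
  rw [← finrankAlong_alphaG_eq, card_QL_lvG M ℓ hℓ hℓM, mul_comm] at h1
  exact Nat.eq_of_mul_eq_mul_right (card_QL_pos (lvG M 1)) h1

end Fermat.Agent.S48.M
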