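import Fermat.Agent.S48.M.G1
import Fermat.Agent.S48.M.Fld.DegreeA
import Fermat.Agent.S48.M.QF.FG

/-!
# S48 / layer M / ALG : the diamond operators on `FL (lvG M 1)`   (helper17)

For `g ∈ Γ₀(M)` the automorphism `merAct g` (`f ↦ f ∘ g⁻¹`) of `Mer` permutes the images of the generators of `FL (lvG M 1)`:
it fixes `j(d τ)`, `d ∣ M`, and sends `w_b` to `w_{b d_g}` (`IfEis.holAct_wH`).  Hence it induces an automorphism of
`FL (lvG M 1)` over `Kb`, which commutes with the Galois action (the generators are rational), preserves `PDiv` and `HasFGD`.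
-/

set_option autoImplicit false

open UpperHalfPlane ModularForm ModularFormClass WithZero ModularCurve AlgebraicCurve CongruenceSubgroup
open Fermat.Agent.S24 Fermat.Agent.S29
open scoped MatrixGroups Manifold

noncomputable section

namespace Fermat.Agent.S48.M

namespace AlgDia

variable (M : ℕ) [NeZero M]

theorem iotaL_gen_j (d : ℕ) [NeZero d] (hz : qExpand ℚ d jq ∈ (lvG M 1).F₀) :
    iotaL (lvG M 1) (ratL (lvG M 1) (qExpand ℚ d jq) hz) = algebraMap Hol Mer (jHd d) := by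
  rw [iotaL_ratL _ _ _ _ (phiS_jQ d), phiH_jQ]

theorem iotaL_gen_w (b : ZMod M) (hz : qExpand ℚ 1 (wS M b) ∈ (lvG M 1).F₀) :
    iotaL (lvG M 1) (ratL (lvG M 1) (qExpand ℚ 1 (wS M b)) hz) =
      algebraMap Hol Mer (wH M b 1) := by
  obtain ⟨y, h1, h2⟩ := exists_wQ M b 1
  rw [iotaL_ratL _ _ _ y h1, h2]

omit [NeZero M] in
theorem diag_mul_eq_one {g : SL(2, ℤ)} (hg : g ∈ Gamma0 M) :
    ((g 1 1 : ℤ) : ZMod M) * ((g 0 0 : ℤ) : ZMod M) = 1 := by
  have hdet := Matrix.SpecialLinearGroup.det_coe g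
  rw [Matrix.det_fin_two] at hdet
  rw [Gamma0_mem] at hg
  have h := congrArg (fun x : ℤ => (x : ZMod M)) hdet
  simp only [Int.cast_sub, Int.cast_mul, Int.cast_one] at h
  rw [hg, mul_zero, sub_zero] at h
  rw [mul_comm]
  exact h

theorem holAct_wH' (b : ZMod M) {g : SL(2, ℤ)} (hg : g ∈ Gamma0 M) :
    holAct g (wH M b 1) = wH M (b * ((g 1 1 : ℤ) : ZMod M)) 1 := by
  have h := holAct_wH M (b * ((g 1 1 : ℤ) : ZMod M)) g⁻¹ (inv_mem hg)
  have h11 : (g⁻¹ : SL(2, ℤ)) 1 1 = g 0 0 := by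
    rw [Matrix.SpecialLinearGroup.coe_inv, Matrix.adjugate_fin_two]
    rfl
  rw [inv_inv, h11, mul_assoc, diag_mul_eq_one M hg, mul_one] at h
  exact h

/-- `merAct g` permutes the generators -/
theorem merAct_gen {g : SL(2, ℤ)} (hg : g ∈ Gamma0 M) (z : LaurentSeries ℚ)
    (hz : z ∈ (lvG M 1).gens) : ∃ (z' : LaurentSeries ℚ) (hz' : z' ∈ (lvG M 1).gens),
      merAct g (iotaL (lvG M 1) (ratL (lvG M 1) z (gens_le (lvG M 1) hz))) =
        iotaL (lvG M 1) (ratL (lvG M 1) z' (gens_le (lvG M 1) hz')) := by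
  rcases id hz with ⟨d, hd0, hd, rfl⟩ | ⟨e, he0, b, he, rfl⟩
  · refine ⟨_, hz, ?_⟩
    rw [iotaL_gen_j, merAct_algebraMap, holAct_jHd M d (by rwa [mul_one] at hd) hg]
  · obtain rfl : e = 1 := Nat.dvd_one.mp he
    refine ⟨qExpand ℚ 1 (wS M (b * ((g 1 1 : ℤ) : ZMod M))),
      Or.inr ⟨1, he0, _, dvd_rfl, rfl⟩, ?_⟩
    rw [iotaL_gen_w, iotaL_gen_w, merAct_algebraMap, holAct_wH' M b hg]

theorem merAct_mem {g : SL(2, ℤ)} (hg : g ∈ Gamma0 M) (θ : FL (lvG M 1)) :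
    merAct g (iotaL (lvG M 1) θ) ∈ (iotaL (lvG M 1)).fieldRange := by
  induction θ using induction_FL with
  | hg z hz =>
    obtain ⟨z', hz', h⟩ := merAct_gen M hg z hz
    rw [h]; exact RingHom.mem_fieldRange.mpr ⟨_, rfl⟩
  | hc a =>
    rw [iotaL_algebraMap, merAct_const, ← iotaL_algebraMap (lvG M 1)]
    exact RingHom.mem_fieldRange.mpr ⟨_, rfl⟩
  | hadd x y hx hy =>
    rw [RingHom.map_add (iotaL (lvG M 1)), map_add (merAct g)]; exact add_mem hx hy
  | hinv x hx => rw [map_inv₀ (iotaL (lvG M 1)), map_inv₀ (merAct g)]; exact inv_mem hx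
  | hmul x y hx hy =>
    rw [RingHom.map_mul (iotaL (lvG M 1)), map_mul (merAct g)]; exact mul_mem hx hy

/-- the endomorphism induced by `merAct g` -/
def actHom {g : SL(2, ℤ)} (hg : g ∈ Gamma0 M) : FL (lvG M 1) →+* FL (lvG M 1) :=
  ((iotaL (lvG M 1)).rangeRestrictFieldEquiv.symm :
      (iotaL (lvG M 1)).fieldRange →+* FL (lvG M 1)).comp
    (((merAct g).toRingHom.comp (iotaL (lvG M 1))).codRestrict (iotaL (lvG M 1)).fieldRange
      (merAct_mem M hg))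

theorem iotaL_actHom {g : SL(2, ℤ)} (hg : g ∈ Gamma0 M) (θ : FL (lvG M 1)) :
    iotaL (lvG M 1) (actHom M hg θ) = merAct g (iotaL (lvG M 1) θ) :=
  RingHom.rangeRestrictFieldEquiv_apply_symm_apply (iotaL (lvG M 1))
    ⟨merAct g (iotaL (lvG M 1) θ), merAct_mem M hg θ⟩

theorem actHom_actHom {g h : SL(2, ℤ)} (hg : g ∈ Gamma0 M) (hh : h ∈ Gamma0 M) (hgh : g * h = 1)
    (θ : FL (lvG M 1)) : actHom M hg (actHom M hh θ) = θ := by
  apply (iotaL (lvG M 1)).injective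
  rw [iotaL_actHom, iotaL_actHom, ← merAct_mul, hgh, merAct_one]
  rfl

theorem actHom_algebraMap {g : SL(2, ℤ)} (hg : g ∈ Gamma0 M) (a : Kb) :
    actHom M hg (algebraMap Kb (FL (lvG M 1)) a) = algebraMap Kb (FL (lvG M 1)) a := by
  apply (iotaL (lvG M 1)).injective
  rw [iotaL_actHom, iotaL_algebraMap, merAct_const]

/-- the automorphism induced by `merAct g` -/
def actEquiv {g : SL(2, ℤ)} (hg : g ∈ Gamma0 M) : FL (lvG M 1) ≃ₐ[Kb] FL (lvG M 1) :=
  AlgEquiv.ofAlgHom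
    { actHom M hg with commutes' := actHom_algebraMap M hg }
    { actHom M (inv_mem hg) with commutes' := actHom_algebraMap M (inv_mem hg) }
    (AlgHom.ext fun θ => actHom_actHom M hg (inv_mem hg) (mul_inv_cancel g) θ)
    (AlgHom.ext fun θ => actHom_actHom M (inv_mem hg) hg (inv_mul_cancel g) θ)

theorem iotaL_actEquiv {g : SL(2, ℤ)} (hg : g ∈ Gamma0 M) (θ : FL (lvG M 1)) :
    iotaL (lvG M 1) (actEquiv M hg θ) = merAct g (iotaL (lvG M 1) θ) :=
  iotaL_actHom M hg θ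

theorem exists_dia (d : (ZMod M)ˣ) : ∃ D : FL (lvG M 1) ≃ₐ[Kb] FL (lvG M 1),
    ∀ u, iotaL (lvG M 1) (D u) = merAct (gamD M d)⁻¹ (iotaL (lvG M 1) u) :=
  ⟨actEquiv M (inv_mem (gamD_mem M d)), iotaL_actEquiv M _⟩

variable {M}

theorem galL_ratL' (L : Lvl) (σ : GQ) (x : LaurentSeries ℚ) (hx : x ∈ L.F₀) :
    galL L σ (ratL L x hx) = ratL L x hx := by
  apply Subtype.ext
  rw [coe_arithmeticRingAut_apply]
  exact coeffMap_coeffEmb σ x

section Spec

variable {g : SL(2, ℤ)} (hg : g ∈ Gamma0 M) (D : FL (lvG M 1) ≃ₐ[Kb] FL (lvG M 1))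
  (hD : ∀ u, iotaL (lvG M 1) (D u) = merAct g (iotaL (lvG M 1) u))

include hg hD

/-- `D` permutes the generators -/
theorem apply_gen (z : LaurentSeries ℚ) (hz : z ∈ (lvG M 1).gens) :
    ∃ (z' : LaurentSeries ℚ) (hz' : z' ∈ (lvG M 1).gens),
      D (ratL (lvG M 1) z (gens_le (lvG M 1) hz)) =
        ratL (lvG M 1) z' (gens_le (lvG M 1) hz') := by
  obtain ⟨z', hz', h⟩ := merAct_gen M hg z hz
  exact ⟨z', hz', (iotaL (lvG M 1)).injective (by rw [hD, h])⟩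

theorem galL_comm (σ : GQ) (u : FL (lvG M 1)) :
    galL (lvG M 1) σ (D u) = D (galL (lvG M 1) σ u) := by
  induction u using induction_FL with
  | hg z hz =>
    obtain ⟨z', hz', h⟩ := apply_gen hg D hD z hz
    rw [h, galL_ratL', galL_ratL', h]
  | hc a =>
    rw [D.commutes, QF.gal_algebraMap, D.commutes]
  | hadd x y hx hy => rw [map_add, map_add, map_add, map_add, hx, hy]
  | hinv x hx => rw [map_inv₀, map_inv₀, map_inv₀, map_inv₀, hx]
  | hmul x y hx hy => rw [map_mul, map_mul, map_mul, map_mul, hx, hy]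

theorem hasFGD : QF.HasFGD (F₀ := (lvG M 1).F₀) D := by
  refine QF.hasFGD_of_gen (lvG M 1).gens (lvG M 1).adjoin_gens.symm (lvG M 1).gens_int D ?_
  rintro x ⟨z, hz, hx⟩
  obtain ⟨z', hz', h⟩ := apply_gen hg D hD z hz
  have hx' : x = ratL (lvG M 1) z (gens_le (lvG M 1) hz) := Subtype.ext hx.symm
  rw [hx', h]
  exact ⟨z', hz', rfl⟩

end Spec

theorem pdiv {F : Type*} [Field F] [Algebra Kb F] (D : F ≃ₐ[Kb] F) {m : ℕ} {u : F}
    (hu : PDiv Kb F m u) : PDiv Kb F m (D u) := by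
  refine ⟨by simpa using hu.1, fun v => ?_⟩
  set g := SemilinearAut.ofAlgAut D with hg
  have h := SemilinearAut.ord_smul g (g⁻¹ • v) u
  rw [smul_inv_smul] at h
  have h2 : g • u = D u := rfl
  rw [← h2, h]
  exact hu.2 _

end AlgDia

end Fermat.Agent.S48.M
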