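import Fermat.Agent.S48.M.Alg.Dia

/-!
# S48 / layer M / ALG : the diamond operators `diaG M d` (definitions moved here from `IfAlg.lean`; proofs = helper17's `Alg/Dia.lean`)
-/

set_option autoImplicit false

open UpperHalfPlane ModularForm ModularFormClass WithZero ModularCurve AlgebraicCurve CongruenceSubgroup
open Fermat.Agent.S24 Fermat.Agent.S29
open scoped MatrixGroups Manifold

noncomputable section

namespace Fermat.Agent.S48.M

variable (M : ℕ) [NeZero M]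

theorem exists_diaG (d : (ZMod M)ˣ) : ∃ D : FL (lvG M 1) ≃ₐ[Kb] FL (lvG M 1),
    ∀ u, iotaL (lvG M 1) (D u) = merAct (gamD M d)⁻¹ (iotaL (lvG M 1) u) :=
  AlgDia.exists_dia M d

/-- the diamond operator `u ↦ u ∘ gamD M d` -/
def diaG (d : (ZMod M)ˣ) : FL (lvG M 1) ≃ₐ[Kb] FL (lvG M 1) := (exists_diaG M d).choose

theorem iotaL_diaG (d : (ZMod M)ˣ) (u : FL (lvG M 1)) :
    iotaL (lvG M 1) (diaG M d u) = merAct (gamD M d)⁻¹ (iotaL (lvG M 1) u) :=
  (exists_diaG M d).choose_spec u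

theorem galL_diaG (d : (ZMod M)ˣ) (σ : GQ) (u : FL (lvG M 1)) :
    galL (lvG M 1) σ (diaG M d u) = diaG M d (galL (lvG M 1) σ u) :=
  AlgDia.galL_comm (inv_mem (gamD_mem M d)) (diaG M d) (iotaL_diaG M d) σ u

/-- every element is a quotient `r / s` with `r, s, dia r, dia s` of finitely generated coefficients -/
theorem hasFGD_diaG (d : (ZMod M)ˣ) : QF.HasFGD (F₀ := (lvG M 1).F₀) (diaG M d) :=
  AlgDia.hasFGD (inv_mem (gamD_mem M d)) (diaG M d) (iotaL_diaG M d)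

theorem PDiv.diaG {m : ℕ} {u : FL (lvG M 1)} (hu : PDiv Kb (FL (lvG M 1)) m u) (d : (ZMod M)ˣ) :
    PDiv Kb (FL (lvG M 1)) m (diaG M d u) :=
  AlgDia.pdiv _ hu

theorem diaG_jL (d : (ZMod M)ˣ) : diaG M d (jL (lvG M 1)) = jL (lvG M 1) := by
  apply (iotaL (lvG M 1)).injective
  have h := holAct_jHd 1 1 dvd_rfl (g := (gamD M d)⁻¹)
    (by rw [Gamma0_mem]; exact Subsingleton.elim _ _)
  rw [jHd_one] at h
  rw [iotaL_diaG, iotaL_jL, merAct_algebraMap, h]

end Fermat.Agent.S48.M
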