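import Fermat.Agent.S48.M.Fld.DegreeA

/-!
# S48 / layer M / ALG : automorphisms of `FL L` induced by elements of `SL(2,ℤ)` permuting the generators   (helper2)

`g ∈ SL(2,ℤ)` such that `merAct g` and `merAct g⁻¹` map (the functions attached to) the generators of `L` to generators.
Then `merAct g` induces a `Kb`-automorphism `D` of `FL L`, which commutes with the Galois action and permutes the generators.
-/

set_option autoImplicit false

open UpperHalfPlane ModularForm EisensteinSeries WithZero ModularCurve AlgebraicCurve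
open Fermat.Agent.S24 Fermat.Agent.S29
open scoped MatrixGroups Manifold Topology

noncomputable section

namespace Fermat.Agent.S48.M

/-- `merAct g` maps generators to generators -/
def PermGens (L : Lvl) (g : SL(2, ℤ)) : Prop :=
  ∀ (z : LaurentSeries ℚ) (hz : z ∈ L.gens), ∃ (z' : LaurentSeries ℚ) (hz' : z' ∈ L.gens),
    merAct g (iotaL L (ratL L z (gens_le L hz))) = iotaL L (ratL L z' (gens_le L hz'))

variable {L : Lvl} {g : SL(2, ℤ)}

theorem PermGens.mem_range (h : PermGens L g) (θ : FL L) :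
    merAct g (iotaL L θ) ∈ (iotaL L).fieldRange := by
  induction θ using induction_FL with
  | hg z hz =>
    obtain ⟨z', hz', e⟩ := h z hz
    rw [e]; exact RingHom.mem_fieldRange.mpr ⟨_, rfl⟩
  | hc a =>
    rw [iotaL_algebraMap, merAct_const, ← iotaL_algebraMap L]
    exact RingHom.mem_fieldRange.mpr ⟨_, rfl⟩
  | hadd x y hx hy =>
    rw [RingHom.map_add (iotaL L), RingEquiv.map_add (merAct g)]; exact add_mem hx hy
  | hinv x hx => rw [map_inv₀ (iotaL L), map_inv₀ (merAct g)]; exact inv_mem hx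
  | hmul x y hx hy =>
    rw [RingHom.map_mul (iotaL L), RingEquiv.map_mul (merAct g)]; exact mul_mem hx hy

/-- the endomorphism induced by `merAct g` -/
def PermGens.hom (h : PermGens L g) : FL L →+* FL L :=
  ((iotaL L).rangeRestrictFieldEquiv.symm : (iotaL L).fieldRange →+* FL L).comp
    (((merAct g).toRingHom.comp (iotaL L)).codRestrict (iotaL L).fieldRange h.mem_range)

theorem PermGens.iotaL_hom (h : PermGens L g) (θ : FL L) :
    iotaL L (h.hom θ) = merAct g (iotaL L θ) :=
  RingHom.rangeRestrictFieldEquiv_apply_symm_apply (iotaL L) ⟨merAct g (iotaL L θ), h.mem_range θ⟩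

theorem PermGens.hom_algebraMap (h : PermGens L g) (a : Kb) :
    h.hom (algebraMap Kb (FL L) a) = algebraMap Kb (FL L) a := by
  apply (iotaL L).injective
  rw [h.iotaL_hom, iotaL_algebraMap, merAct_const]

theorem PermGens.hom_hom (h : PermGens L g) (h' : PermGens L g⁻¹) (θ : FL L) :
    h.hom (h'.hom θ) = θ := by
  apply (iotaL L).injective
  rw [h.iotaL_hom, h'.iotaL_hom, ← merAct_mul, mul_inv_cancel, merAct_one]
  rfl

theorem PermGens.hom_hom' (h : PermGens L g) (h' : PermGens L g⁻¹) (θ : FL L) :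
    h'.hom (h.hom θ) = θ := by
  apply (iotaL L).injective
  rw [h'.iotaL_hom, h.iotaL_hom, ← merAct_mul, inv_mul_cancel, merAct_one]
  rfl

theorem PermGens.hom_ratL (h : PermGens L g) (z : LaurentSeries ℚ) (hz : z ∈ L.gens) :
    ∃ (z' : LaurentSeries ℚ) (hz' : z' ∈ L.gens),
      h.hom (ratL L z (gens_le L hz)) = ratL L z' (gens_le L hz') := by
  obtain ⟨z', hz', e⟩ := h z hz
  exact ⟨z', hz', (iotaL L).injective (by rw [h.iotaL_hom, e])⟩

theorem galL_ratL (σ : GQ) (z : LaurentSeries ℚ) (hz : z ∈ L.F₀) :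
    galL L σ (ratL L z hz) = ratL L z hz :=
  Subtype.ext (coeffMap_coeffEmb σ z)

theorem PermGens.galL_hom (h : PermGens L g) (σ : GQ) (θ : FL L) :
    galL L σ (h.hom θ) = h.hom (galL L σ θ) := by
  induction θ using induction_FL with
  | hg z hz =>
    obtain ⟨z', hz', e⟩ := h.hom_ratL z hz
    rw [e, galL_ratL, galL_ratL, e]
  | hc a =>
    rw [h.hom_algebraMap, arithmeticRingAut_algebraMap, h.hom_algebraMap]
  | hadd x y hx hy => rw [map_add, map_add, map_add, map_add, hx, hy]
  | hinv x hx => rw [map_inv₀, map_inv₀, map_inv₀, map_inv₀, hx]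
  | hmul x y hx hy => rw [map_mul, map_mul, map_mul, map_mul, hx, hy]

/-- the automorphism induced by `merAct g` -/
def PermGens.equiv (h : PermGens L g) (h' : PermGens L g⁻¹) : FL L ≃ₐ[Kb] FL L :=
  AlgEquiv.ofAlgHom { h.hom with commutes' := h.hom_algebraMap }
    { h'.hom with commutes' := h'.hom_algebraMap }
    (AlgHom.ext (h.hom_hom h')) (AlgHom.ext (h.hom_hom' h'))

theorem PermGens.equiv_apply (h : PermGens L g) (h' : PermGens L g⁻¹) (θ : FL L) :
    h.equiv h' θ = h.hom θ := rfl

/-- **automorphisms induced by elements permuting the generators** -/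
theorem exists_dia_generic (h : PermGens L g) (h' : PermGens L g⁻¹) :
    ∃ D : FL L ≃ₐ[Kb] FL L, (∀ u, iotaL L (D u) = merAct g (iotaL L u)) ∧
      (∀ (σ : GQ) (u : FL L), galL L σ (D u) = D (galL L σ u)) ∧
      (∀ x : FL L, (x : LaurentSeries Kb) ∈ ⇑(coeffEmb Kb) '' L.gens →
        ((D x : FL L) : LaurentSeries Kb) ∈ ⇑(coeffEmb Kb) '' L.gens) := by
  refine ⟨h.equiv h', fun u => h.iotaL_hom u, fun σ u => h.galL_hom σ u, ?_⟩
  rintro x ⟨z, hz, hx⟩
  obtain ⟨z', hz', e⟩ := h.hom_ratL z hz
  have hx' : x = ratL L z (gens_le L hz) := Subtype.ext hx.symm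
  rw [hx', PermGens.equiv_apply, e]
  exact ⟨z', hz', rfl⟩

end Fermat.Agent.S48.M
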