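import Fermat.Agent.S48.M.KL.Good
import Fermat.Agent.S48.M.QF.FG

/-!
# S48 / layer M / ALG : generic half of `gu_diaG`   (helper6)

`L ⊆ L'` levels, `L'` with a `KLData` (so that `FL L'` has good reduction over `Kb(t)`, `t` the Hauptmodul of level `r`).
An automorphism `δ` of `FL L` which extends to an automorphism `δ'` of `FL L'` fixing `t` preserves the units of the Gauss
valuation attached to `A ∣ l`, `l ∤ n`:
`GU x ⟹ x, x⁻¹ ∈ VV` (`mem_VV_of_quot`), `δ'` preserves `C0`, `VV`;  conversely `δ x = c y₁ / y₂` (`QF.exists_scale`), `y₁ / y₂` is a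
unit of `VV`, so `c` is a unit of `VV ∩ Kb = A` (`KL.not_SmV_one`).
-/

set_option autoImplicit false
set_option synthInstance.maxHeartbeats 400000
set_option linter.unusedSectionVars false

open HahnSeries ModularCurve AlgebraicCurve IntermediateField Polynomial
open Fermat.Agent.S24 Fermat.Agent.S29 Fermat.Agent.S28 Fermat.Agent.S18 Fermat.Agent.ES.Alg

noncomputable section

namespace Fermat.Agent.S48.M

variable {L L' : Lvl} {n r : ℕ} [NeZero n]

theorem guAux_evE (H : Haupt n r) (D : KLData L' n r) (A : ValuationSubring Kb)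
    (δ' : FL L' ≃ₐ[Kb] FL L') (hτ : δ' (KLL.tauF H D) = KLL.tauF H D) :
    (δ' : FL L' →+* FL L').comp (KL.evE A (KLL.tauL H D) (FL L')) =
      KL.evE A (KLL.tauL H D) (FL L') := by
  refine Polynomial.ringHom_ext (fun a => ?_) ?_
  · rw [RingHom.comp_apply, KLL.evE_C]
    exact δ'.commutes _
  · rw [RingHom.comp_apply]
    have h : KL.evE A (KLL.tauL H D) (FL L') X = KLL.tauF H D := by
      rw [KL.evE, RingHom.comp_apply, KL.evL, coe_eval₂RingHom, eval₂_X]
      rfl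
    rw [h]
    exact hτ

theorem guAux_C0 (H : Haupt n r) (D : KLData L' n r) (A : ValuationSubring Kb)
    (δ' : FL L' ≃ₐ[Kb] FL L') (hτ : δ' (KLL.tauF H D) = KLL.tauF H D) {x : FL L'}
    (hx : x ∈ KL.C0 A (KLL.tauL H D) (FL L')) : δ' x ∈ KL.C0 A (KLL.tauL H D) (FL L') := by
  obtain ⟨p, hp, h0⟩ := hx
  refine ⟨p, hp, ?_⟩
  have h1 := Polynomial.hom_eval₂ p (KL.evE A (KLL.tauL H D) (FL L')) (δ' : FL L' →+* FL L') x
  rw [h0, map_zero, guAux_evE H D A δ' hτ] at h1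
  exact h1.symm

theorem guAux_VV (H : Haupt n r) (D : KLData L' n r) (A : ValuationSubring Kb)
    (δ' : FL L' ≃ₐ[Kb] FL L') (hτ : δ' (KLL.tauF H D) = KLL.tauF H D) {x : FL L'}
    (hx : x ∈ KL.VV A (KLL.tauL H D) (FL L')) : δ' x ∈ KL.VV A (KLL.tauL H D) (FL L') := by
  obtain ⟨S, hS, h⟩ := hx
  refine ⟨S, hS, ?_⟩
  have h1 := guAux_C0 H D A δ' hτ h
  rw [map_mul] at h1
  have h2 : δ' (KL.evE A (KLL.tauL H D) (FL L') S) = KL.evE A (KLL.tauL H D) (FL L') S :=
    congrArg (fun f : (↥A)[X] →+* FL L' => f S) (guAux_evE H D A δ' hτ)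
  rwa [h2] at h1

theorem guAux_mem (H : Haupt n r) (D : KLData L' n r) (A : ValuationSubring Kb) {l : ℕ}
    (hl : l.Prime) (hA : A.LiesOverPrime l) (hln : ¬ l ∣ n) (x : FL L') (y1 y2 : LaurentSeries A)
    (h1 : red A y1 ≠ 0) (h2 : red A y2 ≠ 0)
    (hmul : (x : LaurentSeries Kb) * coeffMap A.subtype y2 = coeffMap A.subtype y1) :
    x ∈ KL.VV A (KLL.tauL H D) (FL L') ∧ x⁻¹ ∈ KL.VV A (KLL.tauL H D) (FL L') := by
  refine ⟨KLL.mem_VV_of_quot H D A hl hA hln x y1 y2 hmul h2,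
    KLL.mem_VV_of_quot H D A hl hA hln x⁻¹ y2 y1 ?_ h1⟩
  have hy1 : coeffMap A.subtype y1 ≠ 0 := by
    intro h0
    apply h1
    have : y1 = 0 := KLL.coeffMap_subtype_injective A (by rw [h0, map_zero])
    rw [this, map_zero]
  have hx : (x : LaurentSeries Kb) ≠ 0 := by
    intro h0
    rw [h0, zero_mul] at hmul
    exact hy1 hmul.symm
  show (x : LaurentSeries Kb)⁻¹ * _ = _
  rw [← hmul, ← mul_assoc, inv_mul_cancel₀ hx, one_mul]

theorem guAux_const (H : Haupt n r) (D : KLData L' n r) (A : ValuationSubring Kb) {c : Kb}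
    (hc : algebraMap Kb (FL L') c ∈ KL.VV A (KLL.tauL H D) (FL L')) : c ∈ A := by
  rcases A.mem_or_inv_mem c with h | h
  · exact h
  · by_contra hcA
    have hc0 : c ≠ 0 := fun h0 => hcA (h0 ▸ A.zero_mem)
    have hfin := KLL.finiteDimensional_LT H D
    apply KL.not_SmV_one (E := FL L') A (KLL.transcendental_tauL H D) (KLL.isGen_tauL H D)
    refine ⟨⟨c⁻¹, h⟩, ?_, _, hc, ?_⟩
    · rw [IsLocalRing.mem_maximalIdeal, mem_nonunits_iff]
      intro hu
      obtain ⟨b, hb⟩ := hu.exists_right_inv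
      have h4 : c⁻¹ * (b : Kb) = 1 := congrArg Subtype.val hb
      have h5 : (b : Kb) = c := by
        field_simp at h4
        exact h4
      exact hcA (h5 ▸ b.2)
    · rw [KLL.evE_C, ← map_mul]
      show (1 : FL L') = algebraMap Kb (FL L') (c⁻¹ * c)
      rw [inv_mul_cancel₀ hc0, map_one]

/-- generic half of `gu_diaG` -/
theorem gu_of_ext (H : Haupt n r) (D : KLData L' n r) (A : ValuationSubring Kb) {l : ℕ}
    (hl : l.Prime) (hA : A.LiesOverPrime l) (hln : ¬ l ∣ n) (hle : barL L ≤ barL L')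
    (hFG : QF.HasFG L.F₀) (δ : FL L ≃ₐ[Kb] FL L) (δ' : FL L' ≃ₐ[Kb] FL L')
    (hδ : ∀ x : FL L, δ' (IntermediateField.inclusion hle x) = IntermediateField.inclusion hle (δ x))
    (hτ : δ' (KLL.tauF H D) = KLL.tauF H D) (x : FL L) (hx : QF.GU A L.F₀ x) :
    QF.GU A L.F₀ (δ x) := by
  obtain ⟨y1, y2, -, -, hy1, hy2, hmul⟩ := hx
  set ι := IntermediateField.inclusion hle with hι
  have hcoe : ∀ z : FL L, ((ι z : FL L') : LaurentSeries Kb) = (z : LaurentSeries Kb) := fun z => rfl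
  obtain ⟨hV1, hV2⟩ := guAux_mem H D A hl hA hln (ι x) y1 y2 hy1 hy2 hmul
  have hW1 : ι (δ x) ∈ KL.VV A (KLL.tauL H D) (FL L') := by
    rw [← hδ]; exact guAux_VV H D A δ' hτ hV1
  have hW2 : (ι (δ x))⁻¹ ∈ KL.VV A (KLL.tauL H D) (FL L') := by
    rw [← hδ, ← map_inv₀]; exact guAux_VV H D A δ' hτ hV2
  have hx0 : x ≠ 0 := by
    rintro rfl
    apply hy1
    have h0 : coeffMap A.subtype y1 = 0 := by
      rw [← hmul]
      show (0 : LaurentSeries Kb) * _ = 0
      rw [zero_mul]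
    have : y1 = 0 := KLL.coeffMap_subtype_injective A (by rw [h0, map_zero])
    rw [this, map_zero]
  have hδx0 : δ x ≠ 0 := by
    rw [Ne, map_eq_zero_iff δ δ.injective]; exact hx0
  have hιδ0 : ι (δ x) ≠ 0 := by
    rw [Ne, map_eq_zero_iff ι ι.injective]; exact hδx0
  obtain ⟨c, z1, z2, hc, hz1, hz2, hr1, hr2, e⟩ := QF.exists_scale (A := A) hFG (δ x) hδx0
  -- `w = c⁻¹ δ x`
  set w : FL L' := algebraMap Kb (FL L') c⁻¹ * ι (δ x) with hw
  have hwmul : (w : LaurentSeries Kb) * coeffMap A.subtype z2 = coeffMap A.subtype z1 := by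
    show algebraMap Kb (LaurentSeries Kb) c⁻¹ * ((δ x : FL L) : LaurentSeries Kb) * _ = _
    rw [mul_assoc, e, ← mul_assoc, ← map_mul, inv_mul_cancel₀ hc, map_one, one_mul]
  obtain ⟨hw1, hw2⟩ := guAux_mem H D A hl hA hln w z1 z2 hr1 hr2 hwmul
  have hcne : algebraMap Kb (FL L') c ≠ 0 := by rw [Ne, map_eq_zero]; exact hc
  have hcA : c ∈ A := by
    apply guAux_const H D A
    have : algebraMap Kb (FL L') c = ι (δ x) * w⁻¹ := by
      rw [hw, mul_inv, map_inv₀, inv_inv]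
      field_simp
    rw [this]; exact mul_mem hW1 hw2
  have hcA' : c⁻¹ ∈ A := by
    apply guAux_const H D A
    have : algebraMap Kb (FL L') c⁻¹ = w * (ι (δ x))⁻¹ := by
      rw [hw, mul_assoc, mul_inv_cancel₀ hιδ0, mul_one]
    rw [this]; exact mul_mem hw1 hW2
  have hres : IsLocalRing.residue A ⟨c, hcA⟩ ≠ 0 := by
    intro h0
    have h2 : (⟨c, hcA⟩ : A) * ⟨c⁻¹, hcA'⟩ = 1 := Subtype.ext (mul_inv_cancel₀ hc)
    have h3 := congrArg (IsLocalRing.residue A) h2
    rw [map_mul, h0, zero_mul, map_one] at h3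
    exact zero_ne_one h3
  refine ⟨HahnSeries.single 0 (⟨c, hcA⟩ : A) * z1, z2, ?_, hz2, ?_, hr2, ?_⟩
  · show coeffMap A.subtype _ ∈ _
    rw [map_mul, coeffMap_subtype_single]
    exact mul_mem ((laurentBaseChange Kb L.F₀).algebraMap_mem _) hz1
  · rw [map_mul, red_single]
    refine mul_ne_zero ?_ hr1
    rw [Ne, map_eq_zero]
    exact hres
  · rw [map_mul, coeffMap_subtype_single, e]

end Fermat.Agent.S48.M
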