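import Fermat.Agent.S48.M.Alg.W
import Fermat.Agent.S48.M.Alg.DiaDef
import Fermat.Agent.S48.M.KL.Main

/-!
# S48 / layer M / ALG : the diamond operators preserve the units of the Gauss valuation   (helper2)

`A ∣ ℓ`, `ℓ ∤ M`.  At the auxiliary level `L' = lvG M R` (`R = 1` or `R = r ∈ {2, 3}`, `r ≠ ℓ`, `r ∣ M R`), `t` the Hauptmodul of level
`r`, `V = VV A t (FL L')` the integral closure of the Gauss ring of `Kb(t)`:
* a Gauss unit `x` lies in `V` (`KLL.mem_VV_of_quot`), as does `x⁻¹`;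
* if `x ∈ V` and `y = x ∘ g`, `g ∈ Γ₀(r)`, then `y ∈ V` (it satisfies the same integral equation over the Gauss ring);
* `V ∩ Kb = A` (`KL.not_SmV_one`);
* `dia x = c y₁ / y₂` (`QF.exists_scale`), `y₁ / y₂` a Gauss unit, hence `c ∈ Vˣ ∩ Kb = Aˣ`.
-/

set_option autoImplicit false
set_option synthInstance.maxHeartbeats 400000
set_option linter.unusedSectionVars false

open HahnSeries ModularCurve AlgebraicCurve IntermediateField CongruenceSubgroup Polynomial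
open Fermat.Agent.S24 Fermat.Agent.S29 Fermat.Agent.S18 Fermat.Agent.S28 Fermat.Agent.ES.Alg
open scoped MatrixGroups

noncomputable section

namespace Fermat.Agent.S48.M

namespace AlgGU

open KLL

section Generic

variable {L : Lvl} {N r : ℕ} [NeZero N] (H : Haupt N r) (D : KLData L N r) (A : ValuationSubring Kb)

/-- `V` is stable under `Γ₀(r)` -/
theorem mem_VV_of_merAct {g : SL(2, ℤ)} (hg : (r : ℤ) ∣ g 1 0) {x y : FL L}
    (hxy : iotaL L y = merAct g (iotaL L x)) (hx : x ∈ KL.VV A (tauL H D) (FL L)) :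
    y ∈ KL.VV A (tauL H D) (FL L) := by
  obtain ⟨p, hp, h0⟩ := KL.isIntegralElem_of_mem_VV A (transcendental_tauL H D) hx
  refine KL.mem_VV_of_isIntegralElem A (transcendental_tauL H D) ⟨p, hp, ?_⟩
  apply (iotaL L).injective
  have h1 : merAct g (iotaL L _) = merAct g (iotaL L 0) := congrArg (fun z => merAct g (iotaL L z)) h0
  rw [map_zero, map_zero] at h1
  have h2 := Polynomial.hom_eval₂ p ((iotaL L).comp ((algebraMap (LT H D) (FL L)).comp
    (KL.OG A (tauL H D)).subtype)) ((merAct g : Mer ≃+* Mer) : Mer →+* Mer) (iotaL L x)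
  rw [RingHom.coe_coe] at h2
  rw [map_zero, ← h1, Polynomial.hom_eval₂, Polynomial.hom_eval₂, h2, hxy]
  congr 1
  ext a
  exact (merAct_iota_LT H D hg a.1).symm

/-- `V ∩ Kb = A` -/
theorem mem_of_algebraMap_mem_VV {c : Kb} (hc : algebraMap Kb (FL L) c ∈ KL.VV A (tauL H D) (FL L)) :
    c ∈ A := by
  have hfin := finiteDimensional_LT H D
  rcases A.mem_or_inv_mem c with h | h
  · exact h
  · by_contra hcA
    apply KL.not_SmV_one (E := FL L) A (transcendental_tauL H D) (isGen_tauL H D)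
    have hc0 : c ≠ 0 := by
      rintro rfl
      exact hcA A.zero_mem
    refine ⟨⟨c⁻¹, h⟩, ?_, _, hc, ?_⟩
    · rw [IsLocalRing.mem_maximalIdeal, mem_nonunits_iff]
      intro hu
      obtain ⟨b, hb⟩ := hu.exists_right_inv
      have h4 : c⁻¹ * (b : Kb) = 1 := congrArg Subtype.val hb
      have h5 : (b : Kb) = c := by
        field_simp at h4
        exact h4
      exact hcA (h5 ▸ b.2)
    · rw [KLL.evE_C, ← map_mul]
      show (1 : FL L) = algebraMap Kb (FL L) (c⁻¹ * c)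
      rw [inv_mul_cancel₀ hc0, map_one]

end Generic

section Level

variable {M : ℕ} [NeZero M]

/-- an element of `Γ₀(M R)` which acts as the diamond operator -/
theorem exists_gam (R : ℕ) [NeZero R] (d : (ZMod M)ˣ) :
    ∃ g : SL(2, ℤ), ((M * R : ℕ) : ℤ) ∣ g 1 0 ∧ ∀ u : FL (lvG M 1),
      iotaL (lvG M 1) (diaG M d u) = merAct g (iotaL (lvG M 1) u) := by
  have : NeZero (M * R) := ⟨mul_ne_zero (NeZero.ne M) (NeZero.ne R)⟩
  have hdvd : M ∣ M * R := Dvd.intro R rfl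
  obtain ⟨d', hd'⟩ := ZMod.unitsMap_surjective hdvd d
  set g' := gamD (M * R) d' with hg'
  set G := gamD M d with hG
  have hg'mem : g' ∈ Gamma0 (M * R) := gamD_mem (M * R) d'
  have h10' : ((M * R : ℕ) : ℤ) ∣ g' 1 0 :=
    (ZMod.intCast_zmod_eq_zero_iff_dvd _ _).mp (Gamma0_mem.mp hg'mem)
  have hg'M : g' ∈ Gamma0 M := by
    rw [Gamma0_mem, ZMod.intCast_zmod_eq_zero_iff_dvd]
    exact (Int.natCast_dvd_natCast.mpr hdvd).trans h10'
  have h11' : ((g' 1 1 : ℤ) : ZMod M) = d := by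
    have h1 : ((g' 1 1 : ℤ) : ZMod (M * R)) = d' := gamD_apply (M * R) d'
    have h2 := congrArg (ZMod.castHom hdvd (ZMod M)) h1
    rw [map_intCast] at h2
    rw [h2, ← hd']
    rfl
  have hGmem : G ∈ Gamma0 M := gamD_mem M d
  have hG11 : ((G 1 1 : ℤ) : ZMod M) = d := gamD_apply M d
  have hmem : G * g'⁻¹ ∈ (lvG M 1).Γ := by
    show G * g'⁻¹ ∈ GG M 1
    rw [mem_GG, Gamma0_mem, mul_one]
    have e10 : (G * g'⁻¹ : SL(2, ℤ)) 1 0 = G 1 0 * g' 1 1 - G 1 1 * g' 1 0 := by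
      rw [Matrix.SpecialLinearGroup.coe_mul, Matrix.SpecialLinearGroup.coe_inv,
        Matrix.adjugate_fin_two, Matrix.mul_apply, Fin.sum_univ_two]
      show G 1 0 * g' 1 1 + G 1 1 * (-(g' 1 0)) = _
      ring
    have e11 : (G * g'⁻¹ : SL(2, ℤ)) 1 1 = - (G 1 0 * g' 0 1) + G 1 1 * g' 0 0 := by
      rw [Matrix.SpecialLinearGroup.coe_mul, Matrix.SpecialLinearGroup.coe_inv,
        Matrix.adjugate_fin_two, Matrix.mul_apply, Fin.sum_univ_two]
      show G 1 0 * (-(g' 0 1)) + G 1 1 * g' 0 0 = _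
      ring
    rw [e10, e11]
    rw [Gamma0_mem] at hGmem
    have hg'0 := Gamma0_mem.mp hg'M
    refine ⟨?_, Or.inl ?_⟩
    · push_cast
      rw [hGmem, hg'0]
      simp
    · push_cast
      rw [hGmem, hG11, ← h11', AlgDia.diag_mul_eq_one M hg'M]
      simp
  refine ⟨g'⁻¹, ?_, fun u => ?_⟩
  · have e : (g'⁻¹ : SL(2, ℤ)) 1 0 = - g' 1 0 := by
      rw [Matrix.SpecialLinearGroup.coe_inv, Matrix.adjugate_fin_two]
      rfl
    rw [e]
    exact (dvd_neg).mpr h10'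
  · have e : g'⁻¹ = G⁻¹ * (G * g'⁻¹) := by group
    rw [iotaL_diaG, e, merAct_mul, merAct_iotaL_of_mem (lvG M 1) hmem]

theorem GU.ne_zero {A : ValuationSubring Kb} {F₀ : IntermediateField ℚ (LaurentSeries ℚ)}
    {x : QF.FB F₀} (hx : QF.GU A F₀ x) : x ≠ 0 := by
  obtain ⟨y1, y2, -, -, h1, -, e⟩ := hx
  rintro rfl
  apply ne_zero_of_red_ne_zero h1
  rw [← e]
  simp

theorem GU.inv {A : ValuationSubring Kb} {F₀ : IntermediateField ℚ (LaurentSeries ℚ)}
    {x : QF.FB F₀} (hx : QF.GU A F₀ x) : QF.GU A F₀ x⁻¹ := by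
  have hx0 := GU.ne_zero hx
  obtain ⟨y1, y2, m1, m2, h1, h2, e⟩ := hx
  refine ⟨y2, y1, m2, m1, h2, h1, ?_⟩
  have hx0' : (x : LaurentSeries Kb) ≠ 0 := fun h0 => hx0 (Subtype.ext h0)
  rw [← e]
  push_cast
  rw [← mul_assoc, inv_mul_cancel₀ hx0', one_mul]

theorem gu_level (R r : ℕ) [NeZero R] (hr : r = 2 ∨ r = 3) (hrN : r ∣ M * R) {ℓ : ℕ}
    (hℓ : ℓ.Prime) (hℓN : ¬ ℓ ∣ M * R) {A : ValuationSubring Kb} (hA : A.LiesOverPrime ℓ)
    (d : (ZMod M)ˣ) (x : FL (lvG M 1)) (hx : QF.GU A (lvG M 1).F₀ x) :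
    QF.GU A (lvG M 1).F₀ (diaG M d x) := by
  have : NeZero (M * R) := ⟨mul_ne_zero (NeZero.ne M) (NeZero.ne R)⟩
  have : NeZero r := ⟨by rcases hr with rfl | rfl <;> norm_num⟩
  obtain ⟨D⟩ := exists_klDataG M R r hrN
  let H : Haupt (M * R) r := haupt (M * R) r hr hrN
  have key : ∀ z : FL (lvG M 1), QF.GU A (lvG M 1).F₀ z →
      alphaG M R z ∈ KL.VV A (tauL H D) (FL (lvG M R)) := by
    rintro z ⟨y1, y2, -, -, -, h2, e⟩
    exact mem_VV_of_quot H D A hℓ hA hℓN (alphaG M R z) y1 y2 (by rw [coe_alphaG]; exact e) h2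
  obtain ⟨g, hg, hact⟩ := exists_gam R d
  have hgr : (r : ℤ) ∣ g 1 0 := (Int.natCast_dvd_natCast.mpr hrN).trans hg
  have hδ : ∀ z : FL (lvG M 1), alphaG M R z ∈ KL.VV A (tauL H D) (FL (lvG M R)) →
      alphaG M R (diaG M d z) ∈ KL.VV A (tauL H D) (FL (lvG M R)) := by
    intro z hz
    refine mem_VV_of_merAct H D A hgr ?_ hz
    rw [iotaL_congr (lvG M R) (lvG M 1) (alphaG M R (diaG M d z)) (diaG M d z) (coe_alphaG M R _),
      hact, iotaL_congr (lvG M R) (lvG M 1) (alphaG M R z) z (coe_alphaG M R _)]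
  have hx0 : x ≠ 0 := GU.ne_zero hx
  have hδx0 : diaG M d x ≠ 0 := by
    rw [Ne, map_eq_zero_iff (diaG M d) (diaG M d).injective]
    exact hx0
  obtain ⟨c, y1, y2, hc, m1, m2, r1, r2, e⟩ :=
    QF.exists_scale A (hasFGD_diaG M d).hasFG (diaG M d x) hδx0
  let z1 : FL (lvG M 1) := ⟨coeffMap A.subtype y1, m1⟩
  let z2 : FL (lvG M 1) := ⟨coeffMap A.subtype y2, m2⟩
  have hz1 : z1 ≠ 0 := fun h0 => ne_zero_of_red_ne_zero r1 (congrArg Subtype.val h0)
  have hz2 : z2 ≠ 0 := fun h0 => ne_zero_of_red_ne_zero r2 (congrArg Subtype.val h0)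
  have e' : diaG M d x * z2 = algebraMap Kb (FL (lvG M 1)) c * z1 := Subtype.ext e
  have hGz : QF.GU A (lvG M 1).F₀ (z1 / z2) := by
    refine ⟨y1, y2, m1, m2, r1, r2, ?_⟩
    have : z1 / z2 * z2 = z1 := div_mul_cancel₀ z1 hz2
    exact congrArg Subtype.val this
  have hc1 : algebraMap Kb (FL (lvG M R)) c =
      alphaG M R (diaG M d x) * alphaG M R (z1 / z2)⁻¹ := by
    rw [← map_mul, ← (alphaG M R).commutes c]
    congr 1
    field_simp
    exact e'.symm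
  have hc2 : algebraMap Kb (FL (lvG M R)) c⁻¹ =
      alphaG M R (diaG M d x⁻¹) * alphaG M R (z1 / z2) := by
    rw [← map_mul, ← (alphaG M R).commutes c⁻¹]
    congr 1
    rw [map_inv₀, map_inv₀]
    have hc0 : algebraMap Kb (FL (lvG M 1)) c ≠ 0 := by
      rw [Ne, map_eq_zero]; exact hc
    field_simp
    exact e'
  have hcA : c ∈ A := by
    apply mem_of_algebraMap_mem_VV H D A
    rw [hc1]
    exact mul_mem (hδ x (key x hx)) (key _ (GU.inv hGz))
  have hcA' : c⁻¹ ∈ A := by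
    apply mem_of_algebraMap_mem_VV H D A
    rw [hc2]
    exact mul_mem (hδ x⁻¹ (key _ (GU.inv hx))) (key _ hGz)
  have hres : IsLocalRing.residue A ⟨c, hcA⟩ ≠ 0 := by
    intro h0
    have h2 : (⟨c, hcA⟩ : A) * ⟨c⁻¹, hcA'⟩ = 1 := Subtype.ext (mul_inv_cancel₀ hc)
    have h3 := congrArg (IsLocalRing.residue A) h2
    rw [map_mul, h0, zero_mul, map_one] at h3
    exact zero_ne_one h3
  refine ⟨HahnSeries.single 0 (⟨c, hcA⟩ : A) * y1, y2, ?_, m2, ?_, r2, ?_⟩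
  · show coeffMap A.subtype _ ∈ _
    rw [map_mul, coeffMap_subtype_single]
    exact mul_mem ((laurentBaseChange Kb (lvG M 1).F₀).algebraMap_mem _) m1
  · rw [map_mul, red_single]
    refine mul_ne_zero ?_ r1
    rw [Ne, map_eq_zero]
    exact hres
  · rw [map_mul, coeffMap_subtype_single, e]

/-- **KEY S48/M-ALG-GU** -/
theorem gu_dia {ℓ : ℕ} {A : ValuationSubring Kb} (hℓ : ℓ.Prime) (hℓM : ¬ ℓ ∣ M)
    (hA : A.LiesOverPrime ℓ) (d : (ZMod M)ˣ) (x : FL (lvG M 1))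
    (hx : QF.GU A (lvG M 1).F₀ x) : QF.GU A (lvG M 1).F₀ (diaG M d x) := by
  obtain ⟨r, hr, hrl⟩ : ∃ r : ℕ, (r = 2 ∨ r = 3) ∧ r ≠ ℓ := by
    by_cases h2 : ℓ = 2
    · exact ⟨3, Or.inr rfl, by omega⟩
    · exact ⟨2, Or.inl rfl, fun h => h2 h.symm⟩
  have hrp : r.Prime := by rcases hr with rfl | rfl <;> norm_num
  have : NeZero r := ⟨hrp.ne_zero⟩
  refine gu_level r r hr (dvd_mul_left r M) hℓ ?_ hA d x hx
  intro h
  rcases (hℓ.dvd_mul).mp h with h1 | h1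
  · exact hℓM h1
  · exact hrl ((Nat.prime_dvd_prime_iff_eq hℓ hrp).mp h1).symm

end Level

end AlgGU

end Fermat.Agent.S48.M
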