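import Fermat.Agent.S48.M.Alg.WGen
import Fermat.Agent.S48.M.G1
import Fermat.Agent.S48.M.QF.Gal

/-!
# S48 / layer M / ALG : the Atkin–Lehner type symmetry of `FL (lvG M ℓ)`   (helper2)

`ℓ` a prime not dividing `M`, `ℓ d - M k = 1`, `γ₀ = [[1, k], [M, ℓ d]] ∈ ±Γ₁(M)`, `γ₁ = [[ℓ, k], [M, d]] ∈ Γ₀(M)` with lower
right entry `d ≡ ℓ⁻¹`;  `ℓ · γ₀(ℓ τ) = γ₁ τ`.
`exists_wG` : an endomorphism `w` of `FL (lvG M ℓ)` with `w ∘ alphaG = betaG`, `w ∘ betaG = alphaG ∘ δ`, for every endomorphism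
`δ` of `FL (lvG M 1)` inducing `f ↦ f ∘ gamD M (unitOf M ℓ)⁻¹` (i.e. `δ = diaG M (unitOf M ℓ)⁻¹`).
-/

set_option autoImplicit false

open UpperHalfPlane ModularForm EisensteinSeries WithZero ModularCurve AlgebraicCurve CongruenceSubgroup
open Fermat.Agent.S24 Fermat.Agent.S29 Fermat.Agent.ES.AL Fermat.Agent.ES.Alg
open scoped MatrixGroups Manifold Topology

noncomputable section

namespace Fermat.Agent.S48.M

section Gens

variable (M ℓ : ℕ) [NeZero ℓ]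

theorem gensG_one_subset : gensG M 1 ⊆ gensG M ℓ := by
  rintro z (⟨d, hd0, hd, rfl⟩ | ⟨e, he0, b, he, rfl⟩)
  · exact Or.inl ⟨d, hd0, by rw [mul_one] at hd; exact hd.mul_right ℓ, rfl⟩
  · exact Or.inr ⟨e, he0, b, he.trans (one_dvd ℓ), rfl⟩

theorem qExpand_gensG {z : LaurentSeries ℚ} (hz : z ∈ gensG M 1) : qExpand ℚ ℓ z ∈ gensG M ℓ := by
  rcases hz with ⟨d, hd0, hd, rfl⟩ | ⟨e, he0, b, he, rfl⟩
  · have : NeZero (ℓ * d) := ⟨mul_ne_zero (NeZero.ne ℓ) (NeZero.ne d)⟩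
    refine Or.inl ⟨ℓ * d, this, ?_, qExpand_qExpand d ℓ jq⟩
    rw [mul_one] at hd
    rw [mul_comm]
    exact mul_dvd_mul_right hd ℓ
  · have : NeZero (ℓ * e) := ⟨mul_ne_zero (NeZero.ne ℓ) (NeZero.ne e)⟩
    refine Or.inr ⟨ℓ * e, this, b, ?_, qExpand_qExpand e ℓ _⟩
    rw [Nat.dvd_one.mp he, mul_one]

variable {M ℓ}

theorem gensG_cases (hℓ : ℓ.Prime) {z : LaurentSeries ℚ} (hz : z ∈ gensG M ℓ) :
    z ∈ gensG M 1 ∨ ∃ z' ∈ gensG M 1, z = qExpand ℚ ℓ z' := by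
  rcases hz with ⟨d, hd0, hd, rfl⟩ | ⟨e, he0, b, he, rfl⟩
  · obtain ⟨e, f, he, hf, rfl⟩ := (Nat.dvd_mul).mp hd
    have he0 : NeZero e := ⟨fun h => NeZero.ne (e * f) (by rw [h, zero_mul])⟩
    rcases (Nat.dvd_prime hℓ).mp hf with rfl | rfl
    · exact Or.inl (Or.inl ⟨e * 1, hd0, by rw [mul_one, mul_one]; exact he, rfl⟩)
    · refine Or.inr ⟨qExpand ℚ e jq, Or.inl ⟨e, he0, by rw [mul_one]; exact he, rfl⟩, ?_⟩
      have : NeZero (f * e) := ⟨by rw [mul_comm]; exact NeZero.ne _⟩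
      rw [qExpand_qExpand e f jq]
      exact qExpand_congr (mul_comm e f) jq
  · rcases (Nat.dvd_prime hℓ).mp he with rfl | rfl
    · exact Or.inl (Or.inr ⟨1, he0, b, dvd_rfl, rfl⟩)
    · refine Or.inr ⟨qExpand ℚ 1 (wS M b), Or.inr ⟨1, inferInstance, b, dvd_rfl, rfl⟩, ?_⟩
      rw [qExpand_one_apply]

end Gens

section Fields

variable (M ℓ : ℕ) [NeZero M] [NeZero ℓ]

theorem F0_le : (lvG M 1).F₀ ≤ (lvG M ℓ).F₀ :=
  IntermediateField.adjoin.mono ℚ _ _ (gensG_one_subset M ℓ)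

theorem F0_vm : ∀ y ∈ (lvG M 1).F₀, qExpand ℚ ℓ y ∈ (lvG M ℓ).F₀ := by
  intro y hy
  have hy' : y ∈ IntermediateField.adjoin ℚ (gensG M 1) := hy
  show qExpand ℚ ℓ y ∈ IntermediateField.adjoin ℚ (gensG M ℓ)
  induction hy' using IntermediateField.adjoin_induction with
  | mem z hz => exact IntermediateField.subset_adjoin ℚ _ (qExpand_gensG M ℓ hz)
  | algebraMap c =>
    have : qExpand ℚ ℓ (algebraMap ℚ (LaurentSeries ℚ) c) = algebraMap ℚ (LaurentSeries ℚ) c :=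
      (qExpandₐ ℓ).commutes c
    rw [this]
    exact IntermediateField.algebraMap_mem _ c
  | add a b _ _ ha hb => rw [map_add]; exact add_mem (ha (by assumption)) (hb (by assumption))
  | inv a _ ha => rw [map_inv₀]; exact inv_mem (ha (by assumption))
  | mul a b _ _ ha hb => rw [map_mul]; exact mul_mem (ha (by assumption)) (hb (by assumption))

theorem coe_alphaG (u : FL (lvG M 1)) : (alphaG M ℓ u : LaurentSeries Kb) = u :=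
  IntermediateField.coe_inclusion _ u

theorem coe_betaG (u : FL (lvG M 1)) :
    (betaG M ℓ u : LaurentSeries Kb) = qExpand Kb ℓ (u : LaurentSeries Kb) := rfl

end Fields

section Matrices

/-- Bezout data -/
structure WData (M ℓ : ℕ) where
  d : ℤ
  k : ℤ
  det : (ℓ : ℤ) * d - M * k = 1

theorem nonempty_WData {M ℓ : ℕ} (h : Nat.Coprime ℓ M) : Nonempty (WData M ℓ) := by
  obtain ⟨x, y, hxy⟩ : IsCoprime (ℓ : ℤ) (M : ℤ) := Nat.isCoprime_iff_coprime.mpr h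
  exact ⟨⟨x, -y, by linarith⟩⟩

namespace WData

variable {M ℓ : ℕ} (D : WData M ℓ)

/-- `γ₀ = [[1, k], [M, ℓ d]]` -/
def gam0 : SL(2, ℤ) := ⟨!![1, D.k; (M : ℤ), ℓ * D.d], by
  rw [Matrix.det_fin_two_of]; linarith [D.det]⟩

/-- `γ₁ = [[ℓ, k], [M, d]]` -/
def gam1 : SL(2, ℤ) := ⟨!![(ℓ : ℤ), D.k; (M : ℤ), D.d], by
  rw [Matrix.det_fin_two_of]; linarith [D.det]⟩

theorem point [NeZero ℓ] (τ : ℍ) : scaleH ℓ (D.gam0 • scaleH ℓ τ) = D.gam1 • τ := by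
  apply UpperHalfPlane.ext
  have hden := UpperHalfPlane.denom_ne_zero (D.gam0 : GL (Fin 2) ℝ) (scaleH ℓ τ)
  have hden' := UpperHalfPlane.denom_ne_zero (D.gam1 : GL (Fin 2) ℝ) τ
  rw [coe_scaleH, coe_specialLinearGroup_apply, coe_specialLinearGroup_apply, coe_scaleH]
  have hf : (ℓ : ℂ) ≠ 0 := by exact_mod_cast NeZero.ne ℓ
  simp only [UpperHalfPlane.denom, coe_scaleH] at hden hden'
  have e1 : ((D.gam0 : GL (Fin 2) ℝ) 1 0 : ℝ) = ((D.gam0 1 0 : ℤ) : ℝ) := by simp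
  have e2 : ((D.gam0 : GL (Fin 2) ℝ) 1 1 : ℝ) = ((D.gam0 1 1 : ℤ) : ℝ) := by simp
  have e3 : ((D.gam1 : GL (Fin 2) ℝ) 1 0 : ℝ) = ((D.gam1 1 0 : ℤ) : ℝ) := by simp
  have e4 : ((D.gam1 : GL (Fin 2) ℝ) 1 1 : ℝ) = ((D.gam1 1 1 : ℤ) : ℝ) := by simp
  have a00 : D.gam0 0 0 = 1 := rfl
  have a01 : D.gam0 0 1 = D.k := rfl
  have a10 : D.gam0 1 0 = M := rfl
  have a11 : D.gam0 1 1 = ℓ * D.d := rfl
  have b00 : D.gam1 0 0 = ℓ := rfl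
  have b01 : D.gam1 0 1 = D.k := rfl
  have b10 : D.gam1 1 0 = M := rfl
  have b11 : D.gam1 1 1 = D.d := rfl
  rw [e1, e2, a10, a11] at hden
  rw [e3, e4, b10, b11] at hden'
  rw [a00, a01, a10, a11, b00, b01, b10, b11]
  push_cast at hden hden' ⊢
  simp only [algebraMap_int_eq, eq_intCast]
  push_cast
  rw [mul_div_assoc', div_eq_div_iff hden hden']
  ring

theorem gam0_inv_mem : D.gam0⁻¹ ∈ GG M 1 := by
  rw [mem_GG, Gamma0_mem, mul_one]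
  have h10 : (D.gam0⁻¹ : SL(2, ℤ)) 1 0 = -(M : ℤ) := by
    rw [Matrix.SpecialLinearGroup.coe_inv, Matrix.adjugate_fin_two]
    rfl
  have h11 : (D.gam0⁻¹ : SL(2, ℤ)) 1 1 = 1 := by
    rw [Matrix.SpecialLinearGroup.coe_inv, Matrix.adjugate_fin_two]
    rfl
  rw [h10, h11]
  exact ⟨by simp, Or.inl (by simp)⟩

theorem mul_gam1_inv_mem {G : SL(2, ℤ)} (hG : G ∈ Gamma0 M)
    (hG1 : ((G 1 1 : ℤ) : ZMod M) * (ℓ : ZMod M) = 1) : G * D.gam1⁻¹ ∈ GG M 1 := by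
  rw [mem_GG, Gamma0_mem, mul_one]
  rw [Gamma0_mem] at hG
  have h10 : (G * D.gam1⁻¹ : SL(2, ℤ)) 1 0 = G 1 0 * D.d - G 1 1 * M := by
    rw [Matrix.SpecialLinearGroup.coe_mul, Matrix.SpecialLinearGroup.coe_inv,
      Matrix.adjugate_fin_two, Matrix.mul_apply, Fin.sum_univ_two]
    show G 1 0 * D.d + G 1 1 * (-(M : ℤ)) = _
    ring
  have h11 : (G * D.gam1⁻¹ : SL(2, ℤ)) 1 1 = - (G 1 0 * D.k) + G 1 1 * ℓ := by
    rw [Matrix.SpecialLinearGroup.coe_mul, Matrix.SpecialLinearGroup.coe_inv,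
      Matrix.adjugate_fin_two, Matrix.mul_apply, Fin.sum_univ_two]
    show G 1 0 * (-D.k) + G 1 1 * (ℓ : ℤ) = _
    ring
  rw [h10, h11]
  refine ⟨?_, Or.inl ?_⟩
  · push_cast
    rw [hG]
    simp
  · push_cast
    rw [hG, hG1]
    simp

end WData

end Matrices

section Main

variable {M ℓ : ℕ} [NeZero M] [NeZero ℓ]

theorem unitOf_inv_mul (h : Nat.Coprime ℓ M) :
    (((unitOf M ℓ)⁻¹ : (ZMod M)ˣ) : ZMod M) * (ℓ : ZMod M) = 1 := by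
  have h1 : ((unitOf M ℓ : (ZMod M)ˣ) : ZMod M) = (ℓ : ZMod M) := by
    rw [unitOf, dif_pos h]
    rfl
  rw [← h1]
  exact Units.inv_mul _

theorem coe_ratL (L : Lvl) (z : LaurentSeries ℚ) (hz : z ∈ L.F₀) :
    (ratL L z hz : LaurentSeries Kb) = coeffEmb Kb z := rfl

theorem hgenG (hℓ : ℓ.Prime) (z : LaurentSeries ℚ) (hz : z ∈ (lvG M ℓ).gens) :
    (∃ u, ratL (lvG M ℓ) z (gens_le (lvG M ℓ) hz) =
        (alphaG M ℓ : FL (lvG M 1) →+* FL (lvG M ℓ)) u) ∨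
      (∃ u, ratL (lvG M ℓ) z (gens_le (lvG M ℓ) hz) =
        (betaG M ℓ : FL (lvG M 1) →+* FL (lvG M ℓ)) u) := by
  rcases gensG_cases hℓ hz with h1 | ⟨z', h1, rfl⟩
  · refine Or.inl ⟨ratL (lvG M 1) z (gens_le (lvG M 1) h1), Subtype.ext ?_⟩
    rw [RingHom.coe_coe, coe_alphaG, coe_ratL, coe_ratL]
  · refine Or.inr ⟨ratL (lvG M 1) z' (gens_le (lvG M 1) h1), Subtype.ext ?_⟩
    rw [RingHom.coe_coe, coe_betaG, coe_ratL, coe_ratL]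
    exact coeffMap_qExpand _ ℓ z'

theorem hdeltaG (hcop : Nat.Coprime ℓ M) (D : WData M ℓ) (δ : FL (lvG M 1) →+* FL (lvG M 1))
    (hδ : ∀ u, iotaL (lvG M 1) (δ u) =
      merAct (gamD M (unitOf M ℓ)⁻¹)⁻¹ (iotaL (lvG M 1) u)) (u : FL (lvG M 1)) :
    iotaL (lvG M 1) (δ u) = merAct D.gam1⁻¹ (iotaL (lvG M 1) u) := by
  set G := gamD M (unitOf M ℓ)⁻¹ with hG
  have hmem : G * D.gam1⁻¹ ∈ (lvG M 1).Γ :=
    D.mul_gam1_inv_mem (gamD_mem M _) (by rw [gamD_apply]; exact unitOf_inv_mul hcop)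
  have e : D.gam1⁻¹ = G⁻¹ * (G * D.gam1⁻¹) := by group
  rw [hδ, e, merAct_mul, merAct_iotaL_of_mem (lvG M 1) hmem]

/-- **the Atkin–Lehner type symmetry** -/
theorem exists_wG (hℓ : ℓ.Prime) (hℓM : ¬ ℓ ∣ M) (δ : FL (lvG M 1) →+* FL (lvG M 1))
    (hδ : ∀ u, iotaL (lvG M 1) (δ u) =
      merAct (gamD M (unitOf M ℓ)⁻¹)⁻¹ (iotaL (lvG M 1) u)) :
    ∃ w : FL (lvG M ℓ) →+* FL (lvG M ℓ),
      (∀ u, w (alphaG M ℓ u) = betaG M ℓ u) ∧ (∀ u, w (betaG M ℓ u) = alphaG M ℓ (δ u)) := by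
  have hcop : Nat.Coprime ℓ M := (Nat.Prime.coprime_iff_not_dvd hℓ).mpr hℓM
  obtain ⟨D⟩ := nonempty_WData hcop
  have h0 : D.gam0⁻¹ ∈ (lvG M 1).Γ := D.gam0_inv_mem
  exact exists_w_generic (lvG M 1) (lvG M ℓ) ℓ (alphaG M ℓ : FL (lvG M 1) →+* FL (lvG M ℓ))
    (betaG M ℓ : FL (lvG M 1) →+* FL (lvG M ℓ)) (fun u => coe_alphaG M ℓ u)
    (fun u => coe_betaG M ℓ u) (hgenG hℓ) D.gam0 D.gam1 h0 D.point δ (hdeltaG hcop D δ hδ)

end Main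

end Fermat.Agent.S48.M
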