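import Fermat.Agent.S48.M.Alg.Deg
import Fermat.Agent.S48.M.Alg.W
import Fermat.Agent.S48.M.Alg.DiaDef
import Fermat.Agent.S48.M.Alg.GUDia
import Fermat.Agent.S48.M.QF.Main

/-!
# S48 / layer M / ALG : the Hecke datum of `lvG M 1 ⊆ lvG M ℓ`; the contract theorems of `IfAlg.lean`   (helper2)

`hdataG hℓ hℓM : QF.HData (lvG M 1).F₀ (lvG M ℓ).F₀ ℓ` with `dia = diaG M (unitOf M ℓ)⁻¹`, `w` from `exists_wG`,
`(hdataG hℓ hℓM).T = TlG M ℓ`.

## KEY S48/M-ALG-GU (proved in `Alg/GUDia.lean`) : `gu_diaG`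
`A ∣ ℓ`, `ℓ ∤ M`: the diamond operators preserve the units of the Gauss valuation of `FL (lvG M 1)` attached to `A`.
Proof.  At the auxiliary level `L' = lvG M r` (`r ∈ {2, 3}`, `r ≠ ℓ`; or `L' = lvG M 1` if `r ∣ M`), with `t` the Hauptmodul of level `r`:
`{x : GU A x} = (VV A τ (FL L'))ˣ ∩ FL (lvG M 1)`  (`⊆`: `mem_VV_of_quot` for `x` and `x⁻¹`; `⊇`: `x = c y₁/y₂` by `QF.exists_scale`,
`y₁/y₂` is a unit of `VV`, so `c ∈ VVˣ ∩ Kb = Aˣ`).  The diamond extends to an automorphism of `FL L'` over `Kb(t)` (`DiaGen.lean`: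
an element of `Γ₀(M r)` with lower right entry `≡ d mod M` permutes the generators of `lvG M r` and fixes `t ∈ FN (M r)`), and an
automorphism over `Kb(t)` preserves `C0`, `VV`.
-/

set_option autoImplicit false
set_option synthInstance.maxHeartbeats 400000

open HahnSeries ModularCurve AlgebraicCurve IntermediateField CongruenceSubgroup
open Fermat.Agent.S24 Fermat.Agent.S29 Fermat.Agent.ES.Alg
open scoped MatrixGroups

noncomputable section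

namespace Fermat.Agent.S48.M

variable (M ℓ : ℕ) [NeZero M] [NeZero ℓ]

theorem incl_eq_alphaG : QF.incl (F0_le M ℓ) = alphaG M ℓ := rfl

theorem vmap_eq_betaG : QF.vmap ℓ (F0_vm M ℓ) = betaG M ℓ := rfl

theorem galL_alphaG (σ : GQ) (u : FL (lvG M 1)) :
    galL (lvG M ℓ) σ (alphaG M ℓ u) = alphaG M ℓ (galL (lvG M 1) σ u) :=
  QF.gal_incl (F0_le M ℓ) σ u

theorem galL_betaG (σ : GQ) (u : FL (lvG M 1)) :
    galL (lvG M ℓ) σ (betaG M ℓ u) = betaG M ℓ (galL (lvG M 1) σ u) :=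
  QF.gal_vmap ℓ (F0_vm M ℓ) σ u

theorem galL_normAlphaG (σ : GQ) (x : FL (lvG M ℓ)) :
    galL (lvG M 1) σ (normAlphaG M ℓ x) = normAlphaG M ℓ (galL (lvG M ℓ) σ x) := by
  let _ := algebraAlong (alphaG M ℓ)
  have h := Algebra.norm_eq_of_equiv_equiv (galL (lvG M 1) σ) (galL (lvG M ℓ) σ)
    (RingHom.ext fun u => (galL_alphaG M ℓ σ u).symm) x
  show galL (lvG M 1) σ (Algebra.norm (FL (lvG M 1)) x) =
    Algebra.norm (FL (lvG M 1)) (galL (lvG M ℓ) σ x)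
  rw [h, RingEquiv.apply_symm_apply]

theorem TlG_apply (u : FL (lvG M 1)) : TlG M ℓ u = normAlphaG M ℓ (betaG M ℓ u) := rfl

theorem galL_TlG (σ : GQ) (u : FL (lvG M 1)) :
    galL (lvG M 1) σ (TlG M ℓ u) = TlG M ℓ (galL (lvG M 1) σ u) := by
  rw [TlG_apply, TlG_apply, galL_normAlphaG, galL_betaG]

theorem finite_alphaG : FiniteAlong Kb (alphaG M ℓ) := by
  have h1 := card_mul_relfinrankL (lvG M 1) (lvG M ℓ) (barL_le M ℓ)
  rw [← finrankAlong_alphaG_eq] at h1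
  have h2 : 0 < finrankAlong Kb (alphaG M ℓ) := by
    rcases Nat.eq_zero_or_pos (finrankAlong Kb (alphaG M ℓ)) with h | h
    · rw [h, mul_zero] at h1
      exact absurd h1.symm (card_QL_pos (lvG M ℓ)).ne'
    · exact h
  exact @Module.finite_of_finrank_pos (FL (lvG M 1)) (FL (lvG M ℓ)) _ _
    (algebraAlong (alphaG M ℓ)).toModule
    (@Module.Free.of_divisionRing (FL (lvG M 1)) (FL (lvG M ℓ)) _ _
      (algebraAlong (alphaG M ℓ)).toModule) _ h2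

theorem integral_betaG : (betaG M ℓ).toRingHom.IsIntegral := by
  have hf : Transcendental Kb (betaG M ℓ (jL (lvG M 1))) := fun h =>
    transcendental_jL (lvG M 1)
      ((isAlgebraic_algHom_iff (betaG M ℓ) (betaG M ℓ).injective).mp h)
  exact OrdAux.isIntegral_of_transcendental (betaG M ℓ) (jL (lvG M 1))
    (Fermat.Agent.S24.Diff.finiteDimensional_adjoin_of_transcendental (jL (lvG M ℓ))
      (finiteDimensional_FL (lvG M ℓ)) _ hf)

theorem PDiv.TlG {m : ℕ} {u : FL (lvG M 1)} (hu : PDiv Kb (FL (lvG M 1)) m u) :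
    PDiv Kb (FL (lvG M 1)) m (TlG M ℓ u) := by
  have h1 : PDiv Kb (FL (lvG M ℓ)) m (betaG M ℓ u) := by
    let _ := algebraAlong (betaG M ℓ)
    have := isScalarTower_along (betaG M ℓ)
    have := isIntegral_along (betaG M ℓ) (integral_betaG M ℓ)
    exact PDiv.algebraMap (F := FL (lvG M 1)) (F' := FL (lvG M ℓ)) hu
  let _ := algebraAlong (alphaG M ℓ)
  have := isScalarTower_along (alphaG M ℓ)
  have : FiniteDimensional (FL (lvG M 1)) (FL (lvG M ℓ)) := finite_alphaG M ℓ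
  have : CharZero (FL (lvG M 1)) :=
    charZero_of_injective_algebraMap (Algebra.algebraMap (R := Kb) (A := FL (lvG M 1))).injective
  exact PDiv.norm (F := FL (lvG M 1)) (F' := FL (lvG M ℓ)) h1

variable {M ℓ}

theorem exists_wG' (hℓ : ℓ.Prime) (hℓM : ¬ ℓ ∣ M) :
    ∃ w : FL (lvG M ℓ) →+* FL (lvG M ℓ), (∀ u, w (alphaG M ℓ u) = betaG M ℓ u) ∧
      (∀ u, w (betaG M ℓ u) = alphaG M ℓ (diaG M (unitOf M ℓ)⁻¹ u)) :=
  exists_wG hℓ hℓM (diaG M (unitOf M ℓ)⁻¹ : FL (lvG M 1) →+* FL (lvG M 1))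
    (fun u => iotaL_diaG M _ u)

theorem coeff_jL_neg_one (L : Lvl) : ((jL L : FL L) : LaurentSeries Kb).coeff (-1) = 1 := by
  show (coeffEmb Kb jq).coeff (-1) = 1
  rw [coeffEmb_coeff, coeff_jq_neg_one, map_one]

/-- the Hecke datum -/
def hdataG (hℓ : ℓ.Prime) (hℓM : ¬ ℓ ∣ M) : QF.HData (lvG M 1).F₀ (lvG M ℓ).F₀ ℓ where
  le := F0_le M ℓ
  vm := F0_vm M ℓ
  finrank := finrankAlong_alphaG M ℓ hℓ hℓM
  dia := diaG M (unitOf M ℓ)⁻¹
  dia_gal := fun σ u => (galL_diaG M _ σ u).symm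
  w := (exists_wG' hℓ hℓM).choose
  w_incl := (exists_wG' hℓ hℓM).choose_spec.1
  w_vmap := (exists_wG' hℓ hℓM).choose_spec.2
  t := jL (lvG M 1)
  t_tr := transcendental_jL (lvG M 1)
  t_coeff := by
    rw [diaG_jL, coeff_jL_neg_one]
    exact one_ne_zero
  yE := jL (lvG M ℓ)
  finE := finiteDimensional_FL (lvG M ℓ)

theorem hdataG_T (hℓ : ℓ.Prime) (hℓM : ¬ ℓ ∣ M) : (hdataG hℓ hℓM).T = TlG M ℓ := rfl

theorem hdataG_dia (hℓ : ℓ.Prime) (hℓM : ¬ ℓ ∣ M) :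
    (hdataG hℓ hℓM).dia = diaG M (unitOf M ℓ)⁻¹ := rfl

/-- KEY S48/M-ALG-GU -/
theorem gu_diaG {A : ValuationSubring Kb} (hℓ : ℓ.Prime) (hℓM : ¬ ℓ ∣ M) (hA : A.LiesOverPrime ℓ)
    (d : (ZMod M)ˣ) (x : FL (lvG M 1)) (hx : QF.GU A (lvG M 1).F₀ x) :
    QF.GU A (lvG M 1).F₀ (diaG M d x) :=
  AlgGU.gu_dia hℓ hℓM hA d x hx

theorem goodDia_diaG {A : ValuationSubring Kb} (hℓ : ℓ.Prime) (hℓM : ¬ ℓ ∣ M)
    (hA : A.LiesOverPrime ℓ) (d : (ZMod M)ˣ) : QF.GoodDia A (diaG M d) :=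
  QF.goodDia_of_GU _ (hasFGD_diaG M d) (gu_diaG hℓ hℓM hA d)

/-- the Eichler–Shimura congruence -/
theorem cong_frobG {A : ValuationSubring Kb} (hℓ : ℓ.Prime) (hℓM : ¬ ℓ ∣ M)
    (hA : A.LiesOverPrime ℓ) {σ : GQ} (hσ : A.IsFrobeniusAt σ ℓ) (u : FL (lvG M 1)) (hu : u ≠ 0) :
    ∃ c : Kb, c ≠ 0 ∧ CongL (lvG M 1) A (algebraMap Kb (FL (lvG M 1)) c *
      (TlG M ℓ u * (galL (lvG M 1) σ (diaG M (unitOf M ℓ)⁻¹ u))⁻¹ *
        ((galL (lvG M 1) σ⁻¹ u) ^ ℓ)⁻¹)) :=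
  QF.cong_frob hℓ (hdataG hℓ hℓM) (goodDia_diaG hℓ hℓM hA _) hA hσ u hu

end Fermat.Agent.S48.M
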