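import Fermat.Agent.S48.M.Fld.Iota
import Fermat.Agent.ES.AtkinLehner
import Fermat.Agent.ES.AlgSeries

/-!
# S48 / layer M / ALG : `q ↦ q ^ d` on the pullback ring; compatibility of the embeddings `iotaL`   (helper2)

* `iotaL_congr` : `iotaL L x = iotaL L' x'` when `x` and `x'` are the same Laurent series.
* `merV d` : `f ↦ f (d τ)` on `Mer`;  `iotaL_qExpand` : `iotaL L' x' = merV d (iotaL L x)` when `x' = x(q^d)`.
-/

set_option autoImplicit false

open UpperHalfPlane ModularForm EisensteinSeries WithZero ModularCurve AlgebraicCurve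
open Fermat.Agent.S24 Fermat.Agent.S29 Fermat.Agent.ES.AL Fermat.Agent.ES.Alg
open scoped MatrixGroups Manifold Topology

noncomputable section

namespace Fermat.Agent.S48.M

theorem iotaL_congr (L L' : Lvl) (x : FL L) (x' : FL L')
    (h : (x : LaurentSeries Kb) = (x' : LaurentSeries Kb)) : iotaL L x = iotaL L' x' := by
  rw [iotaL_apply L' x']
  exact iotaL_eq L x _ (by rw [phiS_iotaQL, h])

/-- `f ↦ f (d τ)` on `Mer` -/
def merV (d : ℕ) [NeZero d] : Mer →+* Mer :=
  merComp (scaleH d) (mdiff_scaleH d) (scaleH_surjective d)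

theorem merV_algebraMap (d : ℕ) [NeZero d] (f : Hol) :
    merV d (algebraMap Hol Mer f) = algebraMap Hol Mer (holComp (scaleH d) (mdiff_scaleH d) f) :=
  merComp_algebraMap _ _ _ f

/-- `(f, s) ↦ (f (d τ), s(q^d))` on the pullback ring -/
def VB (d : ℕ) [NeZero d] : Bq →+* Bq where
  toFun p := ⟨(p.1.1 ∘ scaleH d, PowerSeries.expand d (NeZero.ne d) p.1.2), p.2.1.scale d, by
    show qExpansion 1 (p.1.1 ∘ scaleH d) = (PowerSeries.expand d (NeZero.ne d) p.1.2).map kappa
    ext m
    rw [qExpansion_scale_coeff p.2.1, p.2.2, PowerSeries.coeff_map, PowerSeries.coeff_map,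
      PowerSeries.coeff_expand]
    split_ifs <;> simp⟩
  map_one' := Subtype.ext (Prod.ext rfl (map_one _))
  map_mul' p r := Subtype.ext (Prod.ext rfl (map_mul _ _ _))
  map_zero' := Subtype.ext (Prod.ext rfl (map_zero _))
  map_add' p r := Subtype.ext (Prod.ext rfl (map_add _ _ _))

theorem prH_VB (d : ℕ) [NeZero d] (p : Bq) :
    prH (VB d p) = holComp (scaleH d) (mdiff_scaleH d) (prH p) := rfl

theorem prS_VB (d : ℕ) [NeZero d] (p : Bq) :
    prS (VB d p) = PowerSeries.expand d (NeZero.ne d) (prS p) := rfl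

theorem VB_injective (d : ℕ) [NeZero d] : Function.Injective (VB d) := by
  intro p r h
  apply prH_injective
  apply holComp_injective (scaleH d) (mdiff_scaleH d) (scaleH_surjective d)
  have := congrArg prH h
  rw [prH_VB, prH_VB] at this
  exact this

/-- `q ↦ q ^ d` on the fraction field of the pullback ring -/
def VQ (d : ℕ) [NeZero d] : Qq →+* Qq := IsFractionRing.map (VB_injective d)

theorem VQ_algebraMap (d : ℕ) [NeZero d] (p : Bq) :
    VQ d (algebraMap Bq Qq p) = algebraMap Bq Qq (VB d p) :=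
  IsLocalization.map_eq (M := nonZeroDivisors Bq) (T := nonZeroDivisors Bq) (S := Qq) (Q := Qq)
    (nonZeroDivisors_le_comap_nonZeroDivisors_of_injective _ (VB_injective d)) p

theorem ofPowerSeries_expand (d : ℕ) [NeZero d] (s : PowerSeries Kb) :
    HahnSeries.ofPowerSeries ℤ Kb (PowerSeries.expand d (NeZero.ne d) s) =
      qExpand Kb d (HahnSeries.ofPowerSeries ℤ Kb s) := by
  have h := SeriesAux.qExpand_coeffMap_ofPS d (RingHom.id Kb) s
  rw [coeffMap_id, PowerSeries.map_id] at h
  exact h.symm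

theorem phiH_VQ (d : ℕ) [NeZero d] (y : Qq) : phiH (VQ d y) = merV d (phiH y) := by
  have : phiH.comp (VQ d) = (merV d).comp phiH := by
    apply IsLocalization.ringHom_ext (nonZeroDivisors Bq)
    ext p
    simp only [RingHom.comp_apply]
    rw [VQ_algebraMap, phiH_algebraMap, phiH_algebraMap, merV_algebraMap, prH_VB]
  exact RingHom.congr_fun this y

theorem phiS_VQ (d : ℕ) [NeZero d] (y : Qq) : phiS (VQ d y) = qExpand Kb d (phiS y) := by
  have : phiS.comp (VQ d) = (qExpand Kb d).comp phiS := by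
    apply IsLocalization.ringHom_ext (nonZeroDivisors Bq)
    ext p : 1
    simp only [RingHom.comp_apply]
    rw [VQ_algebraMap, phiS_algebraMap, phiS_algebraMap, prS_VB, ofPowerSeries_expand]
  exact RingHom.congr_fun this y

theorem iotaL_qExpand (L L' : Lvl) (d : ℕ) [NeZero d] (x : FL L) (x' : FL L')
    (h : (x' : LaurentSeries Kb) = qExpand Kb d (x : LaurentSeries Kb)) :
    iotaL L' x' = merV d (iotaL L x) := by
  rw [iotaL_apply L x, ← phiH_VQ]
  exact iotaL_eq L' x' _ (by rw [phiS_VQ, phiS_iotaQL, h])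

end Fermat.Agent.S48.M
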