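import Fermat.Agent.S48.M.Alg.Vmap
import Fermat.Agent.S48.M.Fld.DegreeA

/-!
# S48 / layer M / ALG : the Atkin–Lehner type symmetry, generic version   (helper2)

`L`, `L'` two levels, `α, β : FL L → FL L'` the inclusion and `q ↦ q ^ ℓ`, every generator of `FL L'` is in the image of
`α` or of `β`.  `γ₀, γ₁ ∈ SL(2,ℤ)` with `γ₀ ∈ L.Γ` and `ℓ · γ₀(ℓ τ) = γ₁ τ`; `δ` an endomorphism of `FL L` inducing
`f ↦ f ∘ γ₁`.  Then `f ↦ f(γ₀(ℓ τ))` induces an endomorphism `w` of `FL L'` with `w ∘ α = β`, `w ∘ β = α ∘ δ`.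
-/

set_option autoImplicit false

open UpperHalfPlane ModularForm EisensteinSeries WithZero ModularCurve AlgebraicCurve
open Fermat.Agent.S24 Fermat.Agent.S29 Fermat.Agent.ES.AL Fermat.Agent.ES.Alg
open scoped MatrixGroups Manifold Topology

noncomputable section

namespace Fermat.Agent.S48.M

theorem mer_hom_ext' {φ ψ : Mer →+* Mer}
    (h : ∀ f : Hol, φ (algebraMap Hol Mer f) = ψ (algebraMap Hol Mer f)) : φ = ψ :=
  IsLocalization.ringHom_ext (nonZeroDivisors Hol) (RingHom.ext h)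

/-- `f ↦ f(γ(ℓ τ))` on `Mer` -/
def merW (γ : SL(2, ℤ)) (ℓ : ℕ) [NeZero ℓ] : Mer →+* Mer :=
  merComp (phi γ ℓ) (mdiff_phi γ ℓ) (phi_surjective γ ℓ)

theorem merW_const (γ : SL(2, ℤ)) (ℓ : ℕ) [NeZero ℓ] (c : ℂ) :
    merW γ ℓ (algebraMap ℂ Mer c) = algebraMap ℂ Mer c := merComp_const _ _ _ c

theorem merW_eq (γ : SL(2, ℤ)) (ℓ : ℕ) [NeZero ℓ] (x : Mer) :
    merW γ ℓ x = merV ℓ (merAct γ⁻¹ x) := by
  have : merW γ ℓ = (merV ℓ).comp (merAct γ⁻¹).toRingHom := by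
    apply mer_hom_ext'
    intro f
    rw [RingHom.comp_apply]
    show merW γ ℓ (algebraMap Hol Mer f) = merV ℓ (merAct γ⁻¹ (algebraMap Hol Mer f))
    rw [merAct_algebraMap, merV_algebraMap, merW, merComp_algebraMap]
    congr 1
    ext τ
    show (f : ℍ → ℂ) (γ • scaleH ℓ τ) = (f : ℍ → ℂ) (γ⁻¹⁻¹ • scaleH ℓ τ)
    rw [inv_inv]
  exact RingHom.congr_fun this x

theorem merW_merV (γ γ' : SL(2, ℤ)) (ℓ : ℕ) [NeZero ℓ]
    (hpt : ∀ τ : ℍ, scaleH ℓ (γ • scaleH ℓ τ) = γ' • τ) (x : Mer) :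
    merW γ ℓ (merV ℓ x) = merAct γ'⁻¹ x := by
  have : (merW γ ℓ).comp (merV ℓ) = (merAct γ'⁻¹).toRingHom := by
    apply mer_hom_ext'
    intro f
    rw [RingHom.comp_apply]
    show merW γ ℓ (merV ℓ (algebraMap Hol Mer f)) = merAct γ'⁻¹ (algebraMap Hol Mer f)
    rw [merAct_algebraMap, merV_algebraMap, merW, merComp_algebraMap]
    congr 1
    ext τ
    show (f : ℍ → ℂ) (scaleH ℓ (γ • scaleH ℓ τ)) = (f : ℍ → ℂ) (γ'⁻¹⁻¹ • τ)
    rw [inv_inv, hpt]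
  exact RingHom.congr_fun this x

theorem exists_w_generic (L L' : Lvl) (ℓ : ℕ) [NeZero ℓ] (α β : FL L →+* FL L')
    (hα : ∀ u, (α u : LaurentSeries Kb) = (u : LaurentSeries Kb))
    (hβ : ∀ u, (β u : LaurentSeries Kb) = qExpand Kb ℓ (u : LaurentSeries Kb))
    (hgen : ∀ (z : LaurentSeries ℚ) (hz : z ∈ L'.gens),
      (∃ u, ratL L' z (gens_le L' hz) = α u) ∨ (∃ u, ratL L' z (gens_le L' hz) = β u))
    (γ₀ γ₁ : SL(2, ℤ)) (h0 : γ₀⁻¹ ∈ L.Γ)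
    (hpt : ∀ τ : ℍ, scaleH ℓ (γ₀ • scaleH ℓ τ) = γ₁ • τ)
    (δ : FL L →+* FL L) (hδ : ∀ u, iotaL L (δ u) = merAct γ₁⁻¹ (iotaL L u)) :
    ∃ w : FL L' →+* FL L', (∀ u, w (α u) = β u) ∧ (∀ u, w (β u) = α (δ u)) := by
  have iα : ∀ u, iotaL L' (α u) = iotaL L u := fun u => iotaL_congr L' L _ _ (hα u)
  have iβ : ∀ u, iotaL L' (β u) = merV ℓ (iotaL L u) := fun u => iotaL_qExpand L L' ℓ u _ (hβ u)
  have cα : ∀ u, merW γ₀ ℓ (iotaL L' (α u)) = iotaL L' (β u) := by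
    intro u
    rw [iα, iβ, merW_eq, merAct_iotaL_of_mem L h0]
  have cβ : ∀ u, merW γ₀ ℓ (iotaL L' (β u)) = iotaL L' (α (δ u)) := by
    intro u
    rw [iα, iβ, merW_merV γ₀ γ₁ ℓ hpt, hδ]
  have hmem : ∀ θ : FL L', merW γ₀ ℓ (iotaL L' θ) ∈ (iotaL L').fieldRange := by
    intro θ
    induction θ using induction_FL with
    | hg z hz =>
      rcases hgen z hz with ⟨u, hu⟩ | ⟨u, hu⟩
      · rw [hu, cα]; exact RingHom.mem_fieldRange.mpr ⟨_, rfl⟩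
      · rw [hu, cβ]; exact RingHom.mem_fieldRange.mpr ⟨_, rfl⟩
    | hc a =>
      rw [iotaL_algebraMap, merW_const, ← iotaL_algebraMap L']
      exact RingHom.mem_fieldRange.mpr ⟨_, rfl⟩
    | hadd x y hx hy =>
      rw [RingHom.map_add (iotaL L'), RingHom.map_add (merW γ₀ ℓ)]; exact add_mem hx hy
    | hinv x hx => rw [map_inv₀ (iotaL L'), map_inv₀ (merW γ₀ ℓ)]; exact inv_mem hx
    | hmul x y hx hy =>
      rw [RingHom.map_mul (iotaL L'), RingHom.map_mul (merW γ₀ ℓ)]; exact mul_mem hx hy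
  let w : FL L' →+* FL L' :=
    ((iotaL L').rangeRestrictFieldEquiv.symm : (iotaL L').fieldRange →+* FL L').comp
      (((merW γ₀ ℓ).comp (iotaL L')).codRestrict (iotaL L').fieldRange hmem)
  have hw : ∀ θ, iotaL L' (w θ) = merW γ₀ ℓ (iotaL L' θ) := fun θ =>
    RingHom.rangeRestrictFieldEquiv_apply_symm_apply (iotaL L') ⟨merW γ₀ ℓ (iotaL L' θ), hmem θ⟩
  refine ⟨w, fun u => ?_, fun u => ?_⟩
  · apply (iotaL L').injective
    rw [hw, cα]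
  · apply (iotaL L').injective
    rw [hw, cβ]

end Fermat.Agent.S48.M
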